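/-
Programme MAZ (S15), Selmer core (helper42): **(K3), abstract form** — the export wish-list to T1B
("T1B-U"), as a Mathlib-only lemma in the vocabulary of `T1/KL46/Abstract.lean` (`LocalData`: `J0`, `J1`)
and `T1B/Node45/PhiAbs.lean` (`hphi`).

`A = J(K̄_p)` with the action of the inertia group `I` at `p`; `J0 ≤ A` the classes of multidegree `0`
("`ker τ`"), `J1 ≤ J0` the kernel of reduction; `c` the class of the difference of two points with smooth
reduction on the two components (for `X₀(p)`: `c = c0 = [∞] - [0]`, of finite order).  Hypotheses: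

* `(Φ)`        every `I`-invariant class `y` has `N • y ≡ m • c` modulo `J0`  (`PhiAbs`'s `hphi`, `N = 12`);
* `(CUSP)`     `n₀ • c ∈ J0`  (`(p - 1) • c0 = 0`);
* `(RED-SURJ)` `J0^I / J1^I` is `r`-divisible  (`red : J0^I → Pic⁰(X_s)(F̄_p)` is onto — Hensel — and the
               target, points of a torus over `F̄_p`, is divisible);
* `(FORMAL)`   `J1^I` is `r`-divisible  (`J1` is uniquely `r`-divisible for `r ≠ p`: formal group).

Conclusion `exists_division_point` = **(K3)**: with `M₁ = |N| * n₀`, for every `I`-invariant `y` and every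
`k` there is an `I`-invariant `z'` with `r ^ k • z' = M₁ • y` — exactly the hypotheses `z', hz', hK3` of
`FlatCond42.kumSel_mem_selF`.
-/
import Mathlib

set_option autoImplicit false

namespace Fermat.Agent.MAZ.K3Abs42

variable {I A : Type*} [Group I] [AddCommGroup A] [DistribMulAction I A]

/-- The invariant part of `J0` is `r`-divisible. -/
theorem exists_nsmul_eq_of_mem_J0 (J0 J1 : AddSubgroup A) (hJ1 : J1 ≤ J0) (r : ℕ)
    (hred : ∀ x ∈ J0, (∀ s : I, s • x = x) →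
      ∃ x' ∈ J0, (∀ s : I, s • x' = x') ∧ x - r • x' ∈ J1)
    (hformal : ∀ x ∈ J1, (∀ s : I, s • x = x) → ∃ x' ∈ J1, (∀ s : I, s • x' = x') ∧ r • x' = x)
    (x : A) (hx : x ∈ J0) (hxI : ∀ s : I, s • x = x) :
    ∃ z ∈ J0, (∀ s : I, s • z = z) ∧ r • z = x := by
  obtain ⟨x', hx'0, hx'I, hdiff⟩ := hred x hx hxI
  have hdI : ∀ s : I, s • (x - r • x') = x - r • x' := fun s => by
    rw [smul_sub, hxI s, smul_comm, hx'I s]
  obtain ⟨w, hw1, hwI, hw⟩ := hformal _ hdiff hdI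
  refine ⟨x' + w, J0.add_mem hx'0 (hJ1 hw1), fun s => by rw [smul_add, hx'I s, hwI s], ?_⟩
  rw [smul_add, hw]
  abel

/-- The invariant part of `J0` is `r ^ k`-divisible. -/
theorem exists_pow_nsmul_eq_of_mem_J0 (J0 J1 : AddSubgroup A) (hJ1 : J1 ≤ J0) (r : ℕ)
    (hred : ∀ x ∈ J0, (∀ s : I, s • x = x) →
      ∃ x' ∈ J0, (∀ s : I, s • x' = x') ∧ x - r • x' ∈ J1)
    (hformal : ∀ x ∈ J1, (∀ s : I, s • x = x) → ∃ x' ∈ J1, (∀ s : I, s • x' = x') ∧ r • x' = x)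
    (k : ℕ) (x : A) (hx : x ∈ J0) (hxI : ∀ s : I, s • x = x) :
    ∃ z ∈ J0, (∀ s : I, s • z = z) ∧ r ^ k • z = x := by
  induction k generalizing x with
  | zero => exact ⟨x, hx, hxI, by rw [pow_zero, one_smul]⟩
  | succ k ih =>
    obtain ⟨z, hz0, hzI, hz⟩ := exists_nsmul_eq_of_mem_J0 J0 J1 hJ1 r hred hformal x hx hxI
    obtain ⟨z', hz'0, hz'I, hz'⟩ := ih z hz0 hzI
    exact ⟨z', hz'0, hz'I, by rw [pow_succ', mul_smul, hz', hz]⟩

/-- **(K3), abstract form.** -/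
theorem exists_division_point (J0 J1 : AddSubgroup A) (hJ1 : J1 ≤ J0) (r : ℕ)
    (c : A) (N : ℤ) (n₀ : ℕ)
    (hphi : ∀ y : A, (∀ s : I, s • y = y) → ∃ m : ℤ, N • y - m • c ∈ J0)
    (hcusp : n₀ • c ∈ J0)
    (hred : ∀ x ∈ J0, (∀ s : I, s • x = x) →
      ∃ x' ∈ J0, (∀ s : I, s • x' = x') ∧ x - r • x' ∈ J1)
    (hformal : ∀ x ∈ J1, (∀ s : I, s • x = x) → ∃ x' ∈ J1, (∀ s : I, s • x' = x') ∧ r • x' = x)
    (y : A) (hyI : ∀ s : I, s • y = y) (k : ℕ) :
    ∃ z' : A, r ^ k • z' = (N.natAbs * n₀) • y ∧ ∀ s : I, s • z' = z' := by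
  -- `(N * n₀) • y ∈ J0`
  obtain ⟨m, hm⟩ := hphi y hyI
  have h1 : (n₀ : ℤ) • (N • y - m • c) ∈ J0 := J0.zsmul_mem hm _
  have h2 : m • (n₀ • c) ∈ J0 := J0.zsmul_mem hcusp m
  have h3 : ((n₀ : ℤ) * N) • y ∈ J0 := by
    have e : ((n₀ : ℤ) * N) • y = (n₀ : ℤ) • (N • y - m • c) + m • (n₀ • c) := by
      rw [smul_sub, mul_smul, smul_comm (n₀ : ℤ) m c, natCast_zsmul c n₀]
      abel
    rw [e]
    exact J0.add_mem h1 h2
  -- pass to the absolute value
  have h4 : (N.natAbs * n₀) • y ∈ J0 := by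
    rcases le_total 0 N with hN | hN
    · have e : ((N.natAbs * n₀ : ℕ) : ℤ) = (n₀ : ℤ) * N := by
        rw [Nat.cast_mul, Int.natAbs_of_nonneg hN, mul_comm]
      rw [← natCast_zsmul, e]
      exact h3
    · have e : ((N.natAbs * n₀ : ℕ) : ℤ) = -((n₀ : ℤ) * N) := by
        rw [Nat.cast_mul, Int.ofNat_natAbs_of_nonpos hN]
        ring
      rw [← natCast_zsmul, e, neg_smul]
      exact J0.neg_mem h3
  have h4I : ∀ s : I, s • ((N.natAbs * n₀) • y) = (N.natAbs * n₀) • y := fun s => by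
    rw [smul_comm, hyI s]
  obtain ⟨z, -, hzI, hz⟩ :=
    exists_pow_nsmul_eq_of_mem_J0 J0 J1 hJ1 r hred hformal k _ h4 h4I
  exact ⟨z, hz, hzI⟩

end Fermat.Agent.MAZ.K3Abs42
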