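/-
Programme MAZ (S15), Selmer core (helper42): **(K3), abstract form, FIN-RED variant** (requested by
helper43, report 1164 "T1B-U PROVIDER PLAN v1").

Same setting as `K3Abs42/Main.lean`, but `(RED-SURJ)` is replaced by

* `(FIN-RED)`  `h • x ∈ J1` for every `I`-invariant `x ∈ J0`  (the image of the reduction map lies in a
               finite group, because the residue field of the unramified base is finite).

Conclusion `exists_division_point_fin`: with `M₁ = |N| * n₀ * h`, for every `I`-invariant `y` and every `k`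
there is an `I`-invariant `z' ∈ J1` with `r ^ k • z' = M₁ • y`.
-/
import Mathlib

set_option autoImplicit false

namespace Fermat.Agent.MAZ.K3Abs42

variable {I A : Type*} [Group I] [AddCommGroup A] [DistribMulAction I A]

/-- `(Φ)` + `(CUSP)`: `(|N| * n₀) • y ∈ J0` for every invariant `y`. -/
theorem natAbs_mul_nsmul_mem_J0 (J0 : AddSubgroup A) (c : A) (N : ℤ) (n₀ : ℕ)
    (hphi : ∀ y : A, (∀ s : I, s • y = y) → ∃ m : ℤ, N • y - m • c ∈ J0)
    (hcusp : n₀ • c ∈ J0) (y : A) (hyI : ∀ s : I, s • y = y) :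
    (N.natAbs * n₀) • y ∈ J0 := by
  obtain ⟨m, hm⟩ := hphi y hyI
  have h1 : (n₀ : ℤ) • (N • y - m • c) ∈ J0 := J0.zsmul_mem hm _
  have h2 : m • (n₀ • c) ∈ J0 := J0.zsmul_mem hcusp m
  have h3 : ((n₀ : ℤ) * N) • y ∈ J0 := by
    have e : ((n₀ : ℤ) * N) • y = (n₀ : ℤ) • (N • y - m • c) + m • (n₀ • c) := by
      rw [smul_sub, mul_smul, smul_comm (n₀ : ℤ) m c, natCast_zsmul c n₀]
      abel
    rw [e]
    exact J0.add_mem h1 h2
  rcases le_total 0 N with hN | hN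
  · have e : ((N.natAbs * n₀ : ℕ) : ℤ) = (n₀ : ℤ) * N := by
      rw [Nat.cast_mul, Int.natAbs_of_nonneg hN, mul_comm]
    rw [← natCast_zsmul, e]
    exact h3
  · have e : ((N.natAbs * n₀ : ℕ) : ℤ) = -((n₀ : ℤ) * N) := by
      rw [Nat.cast_mul, Int.ofNat_natAbs_of_nonpos hN]
      ring
    rw [← natCast_zsmul, e, neg_smul]
    exact J0.neg_mem h3

/-- `(FORMAL)` iterated: the invariant part of `J1` is `r ^ k`-divisible. -/
theorem exists_pow_nsmul_eq_of_mem_J1 (J1 : AddSubgroup A) (r : ℕ)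
    (hformal : ∀ x ∈ J1, (∀ s : I, s • x = x) → ∃ x' ∈ J1, (∀ s : I, s • x' = x') ∧ r • x' = x)
    (k : ℕ) (x : A) (hx : x ∈ J1) (hxI : ∀ s : I, s • x = x) :
    ∃ z ∈ J1, (∀ s : I, s • z = z) ∧ r ^ k • z = x := by
  induction k generalizing x with
  | zero => exact ⟨x, hx, hxI, by rw [pow_zero, one_smul]⟩
  | succ k ih =>
    obtain ⟨z, hz1, hzI, hz⟩ := hformal x hx hxI
    obtain ⟨z', hz'1, hz'I, hz'⟩ := ih z hz1 hzI
    exact ⟨z', hz'1, hz'I, by rw [pow_succ', mul_smul, hz', hz]⟩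

/-- **(K3), abstract form, FIN-RED variant**: `M₁ = |N| * n₀ * h`. -/
theorem exists_division_point_fin (J0 J1 : AddSubgroup A) (r : ℕ)
    (c : A) (N : ℤ) (n₀ h : ℕ)
    (hphi : ∀ y : A, (∀ s : I, s • y = y) → ∃ m : ℤ, N • y - m • c ∈ J0)
    (hcusp : n₀ • c ∈ J0)
    (hfin : ∀ x ∈ J0, (∀ s : I, s • x = x) → h • x ∈ J1)
    (hformal : ∀ x ∈ J1, (∀ s : I, s • x = x) → ∃ x' ∈ J1, (∀ s : I, s • x' = x') ∧ r • x' = x)
    (y : A) (hyI : ∀ s : I, s • y = y) (k : ℕ) :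
    ∃ z' : A, r ^ k • z' = (N.natAbs * n₀ * h) • y ∧ (∀ s : I, s • z' = z') ∧ z' ∈ J1 := by
  have h0 : (N.natAbs * n₀) • y ∈ J0 := natAbs_mul_nsmul_mem_J0 J0 c N n₀ hphi hcusp y hyI
  have h0I : ∀ s : I, s • ((N.natAbs * n₀) • y) = (N.natAbs * n₀) • y := fun s => by
    rw [smul_comm, hyI s]
  have h1 : (N.natAbs * n₀ * h) • y ∈ J1 := by
    rw [mul_comm (N.natAbs * n₀) h, mul_smul]
    exact hfin _ h0 h0I
  have h1I : ∀ s : I, s • ((N.natAbs * n₀ * h) • y) = (N.natAbs * n₀ * h) • y := fun s => by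
    rw [smul_comm, hyI s]
  obtain ⟨z, hz1, hzI, hz⟩ := exists_pow_nsmul_eq_of_mem_J1 J1 r hformal k _ h1 h1I
  exact ⟨z, hz, hzI, hz1⟩

end Fermat.Agent.MAZ.K3Abs42
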